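import Mathlib

/-!
# Row LT, tower A2, leaf A2.03.1.3.8 `H753.FinCoverC` -- abstract core (helper98)

OFF-MAIN.  Mathlib only.  A compact subset `C` of a topological group is covered, as far as the
points of a given set `P` are concerned, by finitely many left translates `q U` of a
neighbourhood `U` of `1` with centres `q ∈ P`.
-/

set_option autoImplicit false

open scoped Topology

namespace Fermat.Agent.LT.A2.H98

/-- A neighbourhood `U` of `1` in a topological group contains `a⁻¹ * b` for all `a`, `b` in a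
suitable open neighbourhood `V` of `1`. -/
theorem exists_open_inv_mul98 {H : Type*} [Group H] [TopologicalSpace H] [IsTopologicalGroup H]
    {U : Set H} (hU : U ∈ 𝓝 (1 : H)) :
    ∃ V : Set H, IsOpen V ∧ (1 : H) ∈ V ∧ ∀ a ∈ V, ∀ b ∈ V, a⁻¹ * b ∈ U := by
  have hc : ContinuousAt (fun p : H × H => p.1⁻¹ * p.2) ((1 : H), (1 : H)) :=
    (continuous_fst.inv.mul continuous_snd).continuousAt
  have h1 : (fun p : H × H => p.1⁻¹ * p.2) ((1 : H), (1 : H)) = 1 := by simp
  have hpre : (fun p : H × H => p.1⁻¹ * p.2) ⁻¹' U ∈ 𝓝 ((1 : H), (1 : H)) := by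
    apply hc
    rw [h1]
    exact hU
  rw [nhds_prod_eq] at hpre
  obtain ⟨V₁, hV₁, V₂, hV₂, hsub⟩ := Filter.mem_prod_iff.mp hpre
  obtain ⟨W, hWsub, hWo, hW1⟩ := mem_nhds_iff.mp (Filter.inter_mem hV₁ hV₂)
  refine ⟨W, hWo, hW1, fun a ha b hb => ?_⟩
  have : (a, b) ∈ V₁ ×ˢ V₂ := ⟨(hWsub ha).1, (hWsub hb).2⟩
  exact hsub this

/-- **FIN-COVER, abstract form.** -/
theorem finCover98 {H : Type*} [Group H] [TopologicalSpace H] [IsTopologicalGroup H]
    (C P U : Set H) (hC : IsCompact C) (hU : U ∈ 𝓝 (1 : H)) :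
    ∃ Q : Finset H, (∀ q ∈ Q, q ∈ P) ∧ ∀ p ∈ C, p ∈ P → ∃ q ∈ Q, q⁻¹ * p ∈ U := by
  classical
  obtain ⟨V, hVo, hV1, hV⟩ := exists_open_inv_mul98 hU
  -- the open cover of `C` by the translates `c V`
  have hcov : C ⊆ ⋃ c : H, (fun x : H => c⁻¹ * x) ⁻¹' V := by
    intro c _
    exact Set.mem_iUnion.mpr ⟨c, by simpa using hV1⟩
  have hopen : ∀ c : H, IsOpen ((fun x : H => c⁻¹ * x) ⁻¹' V) := fun c =>
    hVo.preimage (continuous_const.mul continuous_id)
  obtain ⟨T, hT⟩ := hC.elim_finite_subcover _ hopen hcov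
  -- for every centre whose translate meets `P` choose a point of `P` in it
  let good : H → Prop := fun c => ∃ q, q ∈ P ∧ c⁻¹ * q ∈ V
  let pick : H → H := fun c => if h : good c then h.choose else 1
  have hpick : ∀ c, good c → pick c ∈ P ∧ c⁻¹ * pick c ∈ V := by
    intro c h
    have : pick c = h.choose := dif_pos h
    rw [this]
    exact h.choose_spec
  refine ⟨(T.filter good).image pick, ?_, ?_⟩
  · intro q hq
    obtain ⟨c, hc, rfl⟩ := Finset.mem_image.mp hq
    exact (hpick c (Finset.mem_filter.mp hc).2).1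
  · intro p hpC hpP
    obtain ⟨c, hcT, hcp⟩ := Set.mem_iUnion₂.mp (hT hpC)
    have hcp' : c⁻¹ * p ∈ V := hcp
    have hg : good c := ⟨p, hpP, hcp'⟩
    refine ⟨pick c, Finset.mem_image.mpr ⟨c, Finset.mem_filter.mpr ⟨hcT, hg⟩, rfl⟩, ?_⟩
    have h2 := (hpick c hg).2
    have : (pick c)⁻¹ * p = (c⁻¹ * pick c)⁻¹ * (c⁻¹ * p) := by group
    rw [this]
    exact hV _ h2 _ hcp'

end Fermat.Agent.LT.A2.H98
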