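import Fermat.Agent.LT.A2.H753.RegSpec
import Fermat.Agent.LT.A2.H98.FinCoverAbs

/-!
# Row LT, tower A2, leaf A2.03.1.3.8 `H753.FinCoverC` (helper98)

OFF-MAIN.  The frozen Prop `H753.FinCoverC` of helper753's `RegSpec.lean`, verbatim, from the
Mathlib-only core `finCover98`.
-/

set_option autoImplicit false

namespace Fermat.Agent.LT.A2.H98

/-- **R8 FIN-COVER**, the frozen Prop of `RegSpec.lean`. -/
theorem finCoverC98 : Fermat.Agent.LT.A2.H753.FinCoverC := by
  intro H _ _ _ C P U hC hU
  exact finCover98 C P U hC hU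

end Fermat.Agent.LT.A2.H98
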